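import Mathlib
import Fermat.Agent.LT.T6.Spec

/-!
# Row LT, tower T6 -- the SATAKE FUNCTIONAL (helper423), OFF-MAIN helper lemmas

Spectral half of the fundamental lemma (leaves T6.12 FLHypC, T6.13 FLEllUnrC, T6.14 FLEllRamC,
T6.15 FLVanishC).  Mathlib + `T6/Spec.lean` only; nothing assumed.

Every orbital integral of a spherical function `f = sum f(a,b) 1_{K (a,b) K}` at a regular `gamma`
has the shape `sum_{a + b = e} f(a, b) V(a - b)` where the sequence `V` is the transform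
`W[w]` (`wT` below) of a weight `w` on the monomials `x^a y^b |-> [a + b = e] w(a - b)`:

* `gamma` hyperbolic, eigenvalues of valuations `m1 != m2`, `t0 = |m1 - m2|`:
  `V(t0) = 1`, `V(t0 + 2i) = (q - 1) q^(i-1)`; this is `WH q t0` (after division by
  `(sqrt q)^t0`, see `wH`);
* `gamma` hyperbolic, `m1 = m2`, `r = v(1 - t2/t1)`: `V(0) = q^r`, `V(2j) = (q-1) q^(r+j-1)`;
  this is `WE q (q^r) 0`;
* `gamma` elliptic, `k[gamma]` unramified, depth `r`: `V(0) = N0 = 1 + (q+1)(q^r - 1)/(q-1)`,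
  `V(2j) = (q+1) q^(r+j-1)`; this is `WE q N0 1` (note `(q-1) N0 + 2 = (q+1) q^r`);
* `gamma` elliptic, `k[gamma]` ramified: `V(0) = N0 = (q^(rho+1) - 1)/(q-1)`,
  `V(2j) = q^(rho+j)`, `V(2i+1) = q^i`; this is `WE q N0 (1/2)`.

The twisted orbital integrals over the unramified extension of degree `l` have the same shape
with `q^l` in place of `q`, the SAME `N0` and `c`, and `t0/l`, `e/l` in place of `t0`, `e`.
The theorems `fl_functional_E`, `fl_functional_H`, `fl_vanish_E`, `fl_vanish_H`, `support_dvd`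
then give the equality of the two sides from `IsBC` alone.  What is left for the leaf owners is
the two COUNTS (tree / lattice counts) identifying the orbit sums with these shapes.

Main statements: `satPoly_closed`, `ev_eq_zero`, `cf_of_isBC`, `bc_functional`, `bc_graded`,
`bc_graded_not_dvd`, `wT_wE`, `wT_wH`, `fl_functional_E`, `fl_functional_H`, `fl_vanish_E`,
`fl_vanish_H`, `support_dvd`.
-/

set_option autoImplicit false

noncomputable section

namespace Fermat.Agent.LT.T6.H423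

open Fermat.Agent.LT.T6 Finset

/-! ## 1. The constant `√q` -/

/-- `√q` as a complex number (the constant occurring in `satPoly`). -/
def sq (q : ℕ) : ℂ := ((Real.sqrt q : ℝ) : ℂ)

theorem sq_mul_self (q : ℕ) : sq q * sq q = (q : ℂ) := by
  unfold sq
  rw [← Complex.ofReal_mul, Real.mul_self_sqrt (Nat.cast_nonneg q)]
  simp

theorem sq_sq (q : ℕ) : sq q ^ 2 = (q : ℂ) := by
  rw [pow_two, sq_mul_self]

theorem sq_pow (q l : ℕ) : sq (q ^ l) = sq q ^ l := by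
  unfold sq
  rw [← Complex.ofReal_pow]
  congr 1
  rw [Real.sqrt_eq_iff_mul_self_eq (by positivity) (by positivity), ← mul_pow,
    Real.mul_self_sqrt (Nat.cast_nonneg q)]
  push_cast
  rfl

theorem sq_ne_zero {q : ℕ} (hq : 0 < q) : sq q ≠ 0 := by
  intro h
  have := sq_mul_self q
  rw [h, mul_zero] at this
  have h2 : (q : ℂ) ≠ 0 := by exact_mod_cast hq.ne'
  exact h2 this.symm

theorem sq_pow_two_mul (q j : ℕ) : sq q ^ (2 * j) = (q : ℂ) ^ j := by
  rw [pow_mul, sq_sq]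

/-! ## 2. Closed form of `satPoly` -/

/-- The complete homogeneous polynomial `h_n(x, y) = ∑_{i ≤ n} x^i y^(n-i)`. -/
def hh (x y : ℂ) (n : ℕ) : ℂ := ∑ i ∈ range (n + 1), x ^ i * y ^ (n - i)

theorem hh_zero (x y : ℂ) : hh x y 0 = 1 := by simp [hh]

theorem hh_one (x y : ℂ) : hh x y 1 = x + y := by
  simp [hh, Finset.sum_range_succ, add_comm]

theorem hh_succ (x y : ℂ) (n : ℕ) : hh x y (n + 1) = x * hh x y n + y ^ (n + 1) := by
  unfold hh
  rw [Finset.sum_range_succ' _ (n + 1), Finset.mul_sum]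
  simp only [pow_zero, one_mul, Nat.sub_zero, Nat.add_sub_add_right]
  congr 1
  apply Finset.sum_congr rfl
  intro i _
  ring

theorem hh_mul (x y : ℂ) (n : ℕ) :
    (x + y) * hh x y (n + 1) = hh x y (n + 2) + x * y * hh x y n := by
  rw [hh_succ x y (n + 1)]
  have h := hh_succ x y n
  rw [add_mul, h]
  ring

/-- Closed form of the Satake polynomial:
`Σ_{n+2} = (√q)^(n+2) h_{n+2} - (√q)^n · xy · h_n`. -/
theorem satPoly_closed (q : ℕ) (x y : ℂ) :
    ∀ n : ℕ, satPoly q x y (n + 2)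
      = sq q ^ (n + 2) * hh x y (n + 2) - sq q ^ n * (x * y) * hh x y n
  | 0 => by
      have h2 : hh x y 2 = x ^ 2 + x * y + y ^ 2 := by
        rw [hh_succ, hh_one]; ring
      have hs := sq_sq q
      show (sq q * (x + y)) ^ 2 - ((q : ℂ) + 1) * (x * y) = _
      rw [h2, hh_zero, ← hs]
      ring
  | 1 => by
      have h0 := satPoly_closed q x y 0
      have hm := hh_mul x y 1
      have hm0 := hh_mul x y 0
      have hs := sq_sq q
      show sq q * (x + y) * satPoly q x y 2 - (q : ℂ) * (x * y) * (sq q * (x + y)) = _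
      rw [h0, ← hs]
      rw [hh_one] at hm0 hm ⊢
      rw [hh_zero] at hm0 ⊢
      have e3 : hh x y 3 = (x + y) * hh x y 2 - x * y * (x + y) := by
        rw [hm]; ring
      rw [e3]
      ring
  | (n + 2) => by
      have h0 := satPoly_closed q x y n
      have h1 := satPoly_closed q x y (n + 1)
      have hs := sq_sq q
      show sq q * (x + y) * satPoly q x y (n + 1 + 2)
          - (q : ℂ) * (x * y) * satPoly q x y (n + 2) = _
      rw [h0, h1, ← hs]
      have hm1 := hh_mul x y (n + 2)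
      have hm2 := hh_mul x y n
      have e4 : hh x y (n + 2 + 2) = (x + y) * hh x y (n + 1 + 2) - x * y * hh x y (n + 2) := by
        rw [show n + 1 + 2 = n + 2 + 1 from rfl, hm1]; ring
      have e2 : hh x y (n + 2) = (x + y) * hh x y (n + 1) - x * y * hh x y n := by
        rw [hm2]; ring
      rw [e4]
      have e2' : sq q ^ (n + 2) * (x * y) * hh x y (n + 2)
          = sq q ^ (n + 2) * (x * y) * ((x + y) * hh x y (n + 1) - x * y * hh x y n) := by
        rw [← e2]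
      rw [e2']
      ring


/-! ## 3. Laurent polynomials in `x, y` as coefficient vectors; linear functionals -/

/-- The linear functional on Laurent polynomials (coefficient vectors) with value `Ω p` on the
monomial `x^p.1 y^p.2`. -/
def fn (Ω : ℤ × ℤ → ℂ) (c : (ℤ × ℤ) →₀ ℂ) : ℂ := c.sum fun p v => v * Ω p

theorem fn_add (Ω : ℤ × ℤ → ℂ) (c c' : (ℤ × ℤ) →₀ ℂ) : fn Ω (c + c') = fn Ω c + fn Ω c' := by
  unfold fn
  rw [Finsupp.sum_add_index'] <;> intros <;> ring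

theorem fn_smul (Ω : ℤ × ℤ → ℂ) (a : ℂ) (c : (ℤ × ℤ) →₀ ℂ) : fn Ω (a • c) = a * fn Ω c := by
  unfold fn
  rw [Finsupp.sum_smul_index' (by intros; ring), Finsupp.mul_sum]
  apply Finsupp.sum_congr
  intro p _
  simp only [smul_eq_mul]
  ring

theorem fn_neg (Ω : ℤ × ℤ → ℂ) (c : (ℤ × ℤ) →₀ ℂ) : fn Ω (-c) = - fn Ω c := by
  have := fn_smul Ω (-1) c
  simpa using this

theorem fn_sub (Ω : ℤ × ℤ → ℂ) (c c' : (ℤ × ℤ) →₀ ℂ) : fn Ω (c - c') = fn Ω c - fn Ω c' := by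
  rw [sub_eq_add_neg, fn_add, fn_neg, sub_eq_add_neg]

theorem fn_zero (Ω : ℤ × ℤ → ℂ) : fn Ω 0 = 0 := by
  simp [fn]

theorem fn_single (Ω : ℤ × ℤ → ℂ) (p : ℤ × ℤ) (v : ℂ) : fn Ω (Finsupp.single p v) = v * Ω p := by
  unfold fn
  rw [Finsupp.sum_single_index]
  ring

theorem fn_finset_sum (Ω : ℤ × ℤ → ℂ) {ι : Type} (s : Finset ι) (g : ι → (ℤ × ℤ) →₀ ℂ) :
    fn Ω (∑ i ∈ s, g i) = ∑ i ∈ s, fn Ω (g i) := by
  classical
  induction s using Finset.induction_on with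
  | empty => simp [fn_zero]
  | insert a s ha ih => rw [Finset.sum_insert ha, Finset.sum_insert ha, fn_add, ih]

theorem fn_finsupp_sum (Ω : ℤ × ℤ → ℂ) (F : (ℤ × ℤ) →₀ ℂ) (g : ℤ × ℤ → ℂ → (ℤ × ℤ) →₀ ℂ) :
    fn Ω (F.sum g) = F.sum fun lam c => fn Ω (g lam c) := by
  unfold Finsupp.sum
  exact fn_finset_sum Ω _ _

theorem fn_mapDomain (Ω : ℤ × ℤ → ℂ) (g : ℤ × ℤ → ℤ × ℤ) (c : (ℤ × ℤ) →₀ ℂ) :
    fn Ω (Finsupp.mapDomain g c) = fn (fun p => Ω (g p)) c := by
  unfold fn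
  rw [Finsupp.sum_mapDomain_index] <;> intros <;> ring

theorem fn_zero_fun (c : (ℤ × ℤ) →₀ ℂ) : fn (fun _ => 0) c = 0 := by
  simp [fn]

/-- The monomial `x^a y^b` (integer exponents). -/
def mono (x y : ℂ) (p : ℤ × ℤ) : ℂ := x ^ p.1 * y ^ p.2

/-- The value at `(x, y)` of the Laurent polynomial with coefficient vector `c`. -/
def ev (c : (ℤ × ℤ) →₀ ℂ) (x y : ℂ) : ℂ := fn (mono x y) c

/-- The substitution `(x, y) ↦ (x^l, y^l)` on coefficient vectors. -/
def dil (l : ℕ) (c : (ℤ × ℤ) →₀ ℂ) : (ℤ × ℤ) →₀ ℂ :=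
  Finsupp.mapDomain (fun p : ℤ × ℤ => ((l : ℤ) * p.1, (l : ℤ) * p.2)) c

theorem fn_dil (Ω : ℤ × ℤ → ℂ) (l : ℕ) (c : (ℤ × ℤ) →₀ ℂ) :
    fn Ω (dil l c) = fn (fun p => Ω ((l : ℤ) * p.1, (l : ℤ) * p.2)) c :=
  fn_mapDomain Ω _ c

theorem ev_dil (l : ℕ) (c : (ℤ × ℤ) →₀ ℂ) (x y : ℂ) : ev (dil l c) x y = ev c (x ^ l) (y ^ l) := by
  unfold ev
  rw [fn_dil]
  congr 1
  funext p
  simp only [mono]
  rw [zpow_mul, zpow_mul, zpow_natCast, zpow_natCast]

/-- The character `(x, y) ↦ x^a y^b` of `ℂˣ × ℂˣ`. -/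
def chr (p : ℤ × ℤ) : (ℂˣ × ℂˣ) →* ℂ where
  toFun g := ((g.1 ^ p.1 * g.2 ^ p.2 : ℂˣ) : ℂ)
  map_one' := by simp
  map_mul' g g' := by
    simp only [Prod.fst_mul, Prod.snd_mul, mul_zpow, Units.val_mul]
    ring

theorem chr_apply (p : ℤ × ℤ) (x y : ℂ) (hx : x ≠ 0) (hy : y ≠ 0) :
    chr p (Units.mk0 x hx, Units.mk0 y hy) = mono x y p := by
  simp [chr, mono]

theorem two_zpow_inj {a b : ℤ} (h : (2 : ℂ) ^ a = (2 : ℂ) ^ b) : a = b := by
  have h' : ((2 : ℝ) ^ a : ℝ) = (2 : ℝ) ^ b := by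
    have : (((2 : ℝ) ^ a : ℝ) : ℂ) = (((2 : ℝ) ^ b : ℝ) : ℂ) := by
      push_cast
      exact h
    exact_mod_cast this
  exact zpow_right_injective₀ (by norm_num : (0 : ℝ) < 2) (by norm_num) h'

theorem chr_injective : Function.Injective chr := by
  intro p p' h
  have h1 := DFunLike.congr_fun h (Units.mk0 (2 : ℂ) two_ne_zero, Units.mk0 (1 : ℂ) one_ne_zero)
  have h2 := DFunLike.congr_fun h (Units.mk0 (1 : ℂ) one_ne_zero, Units.mk0 (2 : ℂ) two_ne_zero)
  rw [chr_apply, chr_apply] at h1 h2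
  simp only [mono, one_zpow, mul_one, one_mul] at h1 h2
  exact Prod.ext (two_zpow_inj h1) (two_zpow_inj h2)

/-- **Coefficient comparison.**  A Laurent polynomial vanishing on `ℂˣ × ℂˣ` is zero
(Dedekind's independence of characters). -/
theorem ev_eq_zero (c : (ℤ × ℤ) →₀ ℂ) (h : ∀ x y : ℂ, x ≠ 0 → y ≠ 0 → ev c x y = 0) : c = 0 := by
  have hli : LinearIndependent ℂ (fun p : ℤ × ℤ => (chr p : (ℂˣ × ℂˣ) → ℂ)) :=
    (linearIndependent_monoidHom (ℂˣ × ℂˣ) ℂ).comp chr chr_injective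
  rw [linearIndependent_iff] at hli
  apply hli c
  funext g
  rw [Finsupp.linearCombination_apply]
  have hg := h (g.1 : ℂ) (g.2 : ℂ) g.1.ne_zero g.2.ne_zero
  unfold ev fn at hg
  unfold Finsupp.sum at hg ⊢
  rw [Finset.sum_apply]
  simp only [Pi.zero_apply, Pi.smul_apply, smul_eq_mul]
  rw [← hg]
  apply Finset.sum_congr rfl
  intro p _
  congr 1
  have := chr_apply p (g.1 : ℂ) (g.2 : ℂ) g.1.ne_zero g.2.ne_zero
  rw [← this]
  congr 1
  exact Prod.ext (Units.ext rfl) (Units.ext rfl)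

theorem ev_ext (c c' : (ℤ × ℤ) →₀ ℂ)
    (h : ∀ x y : ℂ, x ≠ 0 → y ≠ 0 → ev c x y = ev c' x y) : c = c' := by
  rw [← sub_eq_zero]
  apply ev_eq_zero
  intro x y hx hy
  unfold ev at h ⊢
  rw [fn_sub, h x y hx hy, sub_self]

/-! ## 4. The coefficient vector of the Satake transform -/

/-- The coefficient vector of `(xy)^b h_n(x, y)`. -/
def hC (b : ℤ) (n : ℕ) : (ℤ × ℤ) →₀ ℂ :=
  ∑ i ∈ range (n + 1), Finsupp.single (b + (i : ℤ), b + ((n - i : ℕ) : ℤ)) 1

theorem fn_hC (Ω : ℤ × ℤ → ℂ) (b : ℤ) (n : ℕ) :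
    fn Ω (hC b n) = ∑ i ∈ range (n + 1), Ω (b + (i : ℤ), b + ((n - i : ℕ) : ℤ)) := by
  unfold hC
  rw [fn_finset_sum]
  apply Finset.sum_congr rfl
  intro i _
  rw [fn_single, one_mul]

theorem ev_hC (b : ℤ) (n : ℕ) (x y : ℂ) (hx : x ≠ 0) (hy : y ≠ 0) :
    ev (hC b n) x y = (x * y) ^ b * hh x y n := by
  unfold ev
  rw [fn_hC]
  unfold hh
  rw [Finset.mul_sum]
  apply Finset.sum_congr rfl
  intro i _
  simp only [mono]
  rw [zpow_add₀ hx, zpow_add₀ hy, mul_zpow, zpow_natCast, zpow_natCast]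
  ring

/-- The coefficient vector of the Satake transform of `1_{K λ K}`, `λ = (a, b)`, `n = a - b`:
`(xy)^b ((√q)^n h_n - (√q)^(n-2) xy h_(n-2))` (second term only for `n ≥ 2`). -/
def satC (q : ℕ) (lam : ℤ × ℤ) : (ℤ × ℤ) →₀ ℂ :=
  sq q ^ (lam.1 - lam.2).toNat • hC lam.2 (lam.1 - lam.2).toNat
    - (if 2 ≤ (lam.1 - lam.2).toNat then
        sq q ^ ((lam.1 - lam.2).toNat - 2) • hC (lam.2 + 1) ((lam.1 - lam.2).toNat - 2)
      else 0)

theorem ev_satC (q : ℕ) (lam : ℤ × ℤ) (x y : ℂ) (hx : x ≠ 0) (hy : y ≠ 0) :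
    ev (satC q lam) x y = satake q lam x y := by
  have hxy : x * y ≠ 0 := mul_ne_zero hx hy
  unfold satC satake
  generalize (lam.1 - lam.2).toNat = n
  have key : ∀ c c' : (ℤ × ℤ) →₀ ℂ, ev (c - c') x y = ev c x y - ev c' x y :=
    fun c c' => fn_sub _ c c'
  have keys : ∀ (a : ℂ) (c : (ℤ × ℤ) →₀ ℂ), ev (a • c) x y = a * ev c x y :=
    fun a c => fn_smul _ a c
  rw [key, keys, ev_hC _ _ _ _ hx hy]
  rcases n with _ | _ | n
  · have h0 : ev (0 : (ℤ × ℤ) →₀ ℂ) x y = 0 := fn_zero _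
    simp [hh_zero, satPoly, h0]
  · have h0 : ev (0 : (ℤ × ℤ) →₀ ℂ) x y = 0 := fn_zero _
    simp only [zero_add, pow_one, hh_one, show ¬ (2 ≤ 1) by norm_num, if_false, h0, sub_zero]
    show _ = (x * y) ^ lam.2 * (sq q * (x + y))
    ring
  · rw [if_pos (by omega), keys, ev_hC _ _ _ _ hx hy, satPoly_closed, zpow_add_one₀ hxy]
    have e : n + 1 + 1 - 2 = n := by omega
    rw [e]
    ring

/-- The coefficient vector of the Satake transform of the spherical function `F`. -/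
def cf (q : ℕ) (F : (ℤ × ℤ) →₀ ℂ) : (ℤ × ℤ) →₀ ℂ := F.sum fun lam c => c • satC q lam

theorem fn_cf (Ω : ℤ × ℤ → ℂ) (q : ℕ) (F : (ℤ × ℤ) →₀ ℂ) :
    fn Ω (cf q F) = F.sum fun lam c => c * fn Ω (satC q lam) := by
  unfold cf
  rw [fn_finsupp_sum]
  apply Finsupp.sum_congr
  intro lam _
  rw [fn_smul]

theorem ev_cf (q : ℕ) (F : (ℤ × ℤ) →₀ ℂ) (x y : ℂ) (hx : x ≠ 0) (hy : y ≠ 0) :
    ev (cf q F) x y = F.sum fun lam c => c * satake q lam x y := by
  unfold ev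
  rw [fn_cf]
  apply Finsupp.sum_congr
  intro lam _
  have := ev_satC q lam x y hx hy
  unfold ev at this
  rw [this]

/-- **Base change as an identity of Laurent polynomials.** -/
theorem cf_of_isBC {l q : ℕ} {φ f : (ℤ × ℤ) →₀ ℂ} (h : IsBC l q φ f) :
    cf q f = dil l (cf (q ^ l) φ) := by
  apply ev_ext
  intro x y hx hy
  rw [ev_dil, ev_cf q f x y hx hy, ev_cf (q ^ l) φ _ _ (pow_ne_zero l hx) (pow_ne_zero l hy)]
  exact h x y hx hy

/-! ## 5. The general functional identity -/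

/-- The value of the functional `Ω` on the Satake transform of `1_{K λ K}`. -/
def satW (q : ℕ) (Ω : ℤ × ℤ → ℂ) (lam : ℤ × ℤ) : ℂ := fn Ω (satC q lam)

/-- **General functional identity.**  If `f = b(φ)` then for EVERY function `Ω` on the
monomials: `∑ f(λ) Ω(Sat_q λ) = ∑ φ(λ') Ω_l(Sat_{q^l} λ')`, `Ω_l(x^a y^b) = Ω(x^{la} y^{lb})`. -/
theorem bc_functional {l q : ℕ} {φ f : (ℤ × ℤ) →₀ ℂ} (h : IsBC l q φ f) (Ω : ℤ × ℤ → ℂ) :
    (f.sum fun lam c => c * satW q Ω lam)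
      = φ.sum fun lam c => c * satW (q ^ l) (fun p => Ω ((l : ℤ) * p.1, (l : ℤ) * p.2)) lam := by
  have h1 := fn_cf Ω q f
  have h2 := fn_cf (fun p => Ω ((l : ℤ) * p.1, (l : ℤ) * p.2)) (q ^ l) φ
  unfold satW
  rw [← h1, ← h2, cf_of_isBC h, fn_dil]

/-- Explicit form of `satW`. -/
theorem satW_eq (q : ℕ) (Ω : ℤ × ℤ → ℂ) (lam : ℤ × ℤ) :
    satW q Ω lam
      = sq q ^ (lam.1 - lam.2).toNat
          * ∑ i ∈ range ((lam.1 - lam.2).toNat + 1),
              Ω (lam.2 + (i : ℤ), lam.2 + (((lam.1 - lam.2).toNat - i : ℕ) : ℤ))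
        - (if 2 ≤ (lam.1 - lam.2).toNat then
            sq q ^ ((lam.1 - lam.2).toNat - 2)
              * ∑ i ∈ range ((lam.1 - lam.2).toNat - 2 + 1),
                  Ω (lam.2 + 1 + (i : ℤ), lam.2 + 1 + (((lam.1 - lam.2).toNat - 2 - i : ℕ) : ℤ))
          else 0) := by
  unfold satW satC
  rw [fn_sub, fn_smul, fn_hC]
  congr 1
  split_ifs
  · rw [fn_smul, fn_hC]
  · exact fn_zero Ω


/-! ## 6. Graded functionals `x^a y^b ↦ [a + b = e] · w(a - b)` -/

/-- The graded functional: `x^a y^b ↦ w(a - b)` if `a + b = e`, and `0` otherwise. -/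
def gr (e : ℤ) (w : ℤ → ℂ) (p : ℤ × ℤ) : ℂ := if p.1 + p.2 = e then w (p.1 - p.2) else 0

/-- `A_n = (√q)^n ∑_{i ≤ n} w(2i - n)`: the value of `w` on `(√q)^n h_n`. -/
def aSum (q : ℕ) (w : ℤ → ℂ) (n : ℕ) : ℂ :=
  sq q ^ n * ∑ i ∈ range (n + 1), w (2 * (i : ℤ) - (n : ℤ))

/-- `W_n = A_n - A_{n-2}` (`W_n = A_n` for `n ≤ 1`): the value of `w` on the Satake polynomial
of the sphere of radius `n`. -/
def wT (q : ℕ) (w : ℤ → ℂ) (n : ℕ) : ℂ := aSum q w n - (if 2 ≤ n then aSum q w (n - 2) else 0)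

theorem satW_gr (q : ℕ) (e : ℤ) (w : ℤ → ℂ) (lam : ℤ × ℤ) (hlam : lam.2 ≤ lam.1) :
    satW q (gr e w) lam = if lam.1 + lam.2 = e then wT q w (lam.1 - lam.2).toNat else 0 := by
  rw [satW_eq]
  have hn : (((lam.1 - lam.2).toNat : ℕ) : ℤ) = lam.1 - lam.2 := Int.toNat_of_nonneg (by omega)
  generalize (lam.1 - lam.2).toNat = n at hn
  have e1 : ∀ i ∈ range (n + 1),
      gr e w (lam.2 + (i : ℤ), lam.2 + ((n - i : ℕ) : ℤ))
        = if lam.1 + lam.2 = e then w (2 * (i : ℤ) - (n : ℤ)) else 0 := by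
    intro i hi
    have hi' : i ≤ n := by
      have := Finset.mem_range.mp hi
      omega
    have hc : ((n - i : ℕ) : ℤ) = (n : ℤ) - (i : ℤ) := by omega
    unfold gr
    simp only
    rw [hc]
    have ha : lam.2 + (i : ℤ) + (lam.2 + ((n : ℤ) - (i : ℤ))) = lam.1 + lam.2 := by omega
    have hb : lam.2 + (i : ℤ) - (lam.2 + ((n : ℤ) - (i : ℤ))) = 2 * (i : ℤ) - (n : ℤ) := by omega
    rw [ha, hb]
  have e2 : 2 ≤ n → ∀ i ∈ range (n - 2 + 1),
      gr e w (lam.2 + 1 + (i : ℤ), lam.2 + 1 + ((n - 2 - i : ℕ) : ℤ))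
        = if lam.1 + lam.2 = e then w (2 * (i : ℤ) - ((n - 2 : ℕ) : ℤ)) else 0 := by
    intro h2 i hi
    have hi' : i ≤ n - 2 := by
      have := Finset.mem_range.mp hi
      omega
    have hc : ((n - 2 - i : ℕ) : ℤ) = (n : ℤ) - 2 - (i : ℤ) := by omega
    have hc2 : ((n - 2 : ℕ) : ℤ) = (n : ℤ) - 2 := by omega
    unfold gr
    simp only
    rw [hc, hc2]
    have ha : lam.2 + 1 + (i : ℤ) + (lam.2 + 1 + ((n : ℤ) - 2 - (i : ℤ))) = lam.1 + lam.2 := by
      omega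
    have hb : lam.2 + 1 + (i : ℤ) - (lam.2 + 1 + ((n : ℤ) - 2 - (i : ℤ)))
        = 2 * (i : ℤ) - ((n : ℤ) - 2) := by omega
    rw [ha, hb]
  rw [Finset.sum_congr rfl e1]
  by_cases he : lam.1 + lam.2 = e
  · simp only [he, if_true]
    unfold wT aSum
    congr 1
    split_ifs with h2
    · rw [Finset.sum_congr rfl (e2 h2)]
      simp only [he, if_true]
    · rfl
  · simp only [he, if_false, Finset.sum_const_zero, mul_zero, zero_sub, neg_eq_zero]
    split_ifs with h2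
    · rw [Finset.sum_congr rfl (e2 h2)]
      simp [he]
    · rfl

/-- **Graded functional identity, degree divisible by `l`.**  For `f = b(φ)` (`φ`, `f` dominant),
every weight `w` and every degree `d`:
`∑_{a + b = l d} f(a, b) W_q[w](a - b) = ∑_{a' + b' = d} φ(a', b') W_{q^l}[w(l ·)](a' - b')`. -/
theorem bc_graded {l q : ℕ} (hl : 0 < l) {φ f : (ℤ × ℤ) →₀ ℂ} (h : IsBC l q φ f)
    (hφ : IsDominant φ) (hf : IsDominant f) (d : ℤ) (w : ℤ → ℂ) :
    (f.sum fun lam c =>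
        if lam.1 + lam.2 = (l : ℤ) * d then c * wT q w (lam.1 - lam.2).toNat else 0)
      = φ.sum fun lam c =>
        if lam.1 + lam.2 = d then
          c * wT (q ^ l) (fun t => w ((l : ℤ) * t)) (lam.1 - lam.2).toNat
        else 0 := by
  have hmain := bc_functional h (gr ((l : ℤ) * d) w)
  have hl' : ((l : ℤ)) ≠ 0 := by exact_mod_cast hl.ne'
  have hgr : (fun p : ℤ × ℤ => gr ((l : ℤ) * d) w ((l : ℤ) * p.1, (l : ℤ) * p.2))
      = gr d (fun t => w ((l : ℤ) * t)) := by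
    funext p
    unfold gr
    simp only
    have e1 : ((l : ℤ) * p.1 + (l : ℤ) * p.2 = (l : ℤ) * d) ↔ (p.1 + p.2 = d) := by
      rw [← mul_add]
      exact ⟨fun hh => mul_left_cancel₀ hl' hh, fun hh => by rw [hh]⟩
    have e2 : (l : ℤ) * p.1 - (l : ℤ) * p.2 = (l : ℤ) * (p.1 - p.2) := by ring
    rw [e2]
    by_cases hp : p.1 + p.2 = d
    · rw [if_pos (e1.mpr hp), if_pos hp]
    · rw [if_neg (fun hh => hp (e1.mp hh)), if_neg hp]
  rw [hgr] at hmain
  have lhs : (f.sum fun lam c =>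
        if lam.1 + lam.2 = (l : ℤ) * d then c * wT q w (lam.1 - lam.2).toNat else 0)
      = f.sum fun lam c => c * satW q (gr ((l : ℤ) * d) w) lam := by
    apply Finsupp.sum_congr
    intro lam hlam
    rw [satW_gr q _ w lam (hf lam hlam)]
    split_ifs <;> simp
  have rhs : (φ.sum fun lam c =>
        if lam.1 + lam.2 = d then
          c * wT (q ^ l) (fun t => w ((l : ℤ) * t)) (lam.1 - lam.2).toNat
        else 0)
      = φ.sum fun lam c => c * satW (q ^ l) (gr d (fun t => w ((l : ℤ) * t))) lam := by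
    apply Finsupp.sum_congr
    intro lam hlam
    rw [satW_gr (q ^ l) _ _ lam (hφ lam hlam)]
    split_ifs <;> simp
  rw [lhs, rhs]
  exact hmain

/-- **Graded functional identity, degree NOT divisible by `l`**: the left side vanishes. -/
theorem bc_graded_not_dvd {l q : ℕ} {φ f : (ℤ × ℤ) →₀ ℂ} (h : IsBC l q φ f)
    (hf : IsDominant f) (e : ℤ) (he : ¬ (l : ℤ) ∣ e) (w : ℤ → ℂ) :
    (f.sum fun lam c =>
        if lam.1 + lam.2 = e then c * wT q w (lam.1 - lam.2).toNat else 0) = 0 := by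
  have hmain := bc_functional h (gr e w)
  have hgr : (fun p : ℤ × ℤ => gr e w ((l : ℤ) * p.1, (l : ℤ) * p.2)) = fun _ => 0 := by
    funext p
    unfold gr
    simp only
    rw [if_neg]
    intro hh
    apply he
    rw [← hh, ← mul_add]
    exact dvd_mul_right _ _
  rw [hgr] at hmain
  have lhs : (f.sum fun lam c =>
        if lam.1 + lam.2 = e then c * wT q w (lam.1 - lam.2).toNat else 0)
      = f.sum fun lam c => c * satW q (gr e w) lam := by
    apply Finsupp.sum_congr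
    intro lam hlam
    rw [satW_gr q _ w lam (hf lam hlam)]
    split_ifs <;> simp
  rw [lhs, hmain]
  unfold satW
  simp [fn_zero_fun, Finsupp.sum]

/-- Recursion for `A_n`: `A_{n+2} = q A_n + (√q)^(n+2) (w(-(n+2)) + w(n+2))`. -/
theorem aSum_succ_succ (q : ℕ) (w : ℤ → ℂ) (n : ℕ) :
    aSum q w (n + 2)
      = (q : ℂ) * aSum q w n
        + sq q ^ (n + 2) * (w (-((n : ℤ) + 2)) + w ((n : ℤ) + 2)) := by
  unfold aSum
  rw [Finset.sum_range_succ, Finset.sum_range_succ']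
  have e1 : ∀ i ∈ range (n + 1),
      w (2 * ((i + 1 : ℕ) : ℤ) - ((n + 2 : ℕ) : ℤ)) = w (2 * (i : ℤ) - (n : ℤ)) := by
    intro i _
    congr 1
    push_cast
    ring
  rw [Finset.sum_congr rfl e1]
  have e2 : (2 * ((0 : ℕ) : ℤ) - ((n + 2 : ℕ) : ℤ)) = -((n : ℤ) + 2) := by
    push_cast; ring
  have e3 : (2 * ((n + 2 : ℕ) : ℤ) - ((n + 2 : ℕ) : ℤ)) = (n : ℤ) + 2 := by
    push_cast; ring
  rw [e2, e3, ← sq_sq q]
  ring

theorem aSum_zero (q : ℕ) (w : ℤ → ℂ) : aSum q w 0 = w 0 := by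
  simp [aSum]

theorem aSum_one (q : ℕ) (w : ℤ → ℂ) : aSum q w 1 = sq q * (w (-1) + w 1) := by
  unfold aSum
  rw [Finset.sum_range_succ, Finset.sum_range_succ, Finset.sum_range_zero]
  norm_num

theorem wT_zero (q : ℕ) (w : ℤ → ℂ) : wT q w 0 = w 0 := by
  simp [wT, aSum_zero]

theorem wT_one (q : ℕ) (w : ℤ → ℂ) : wT q w 1 = sq q * (w (-1) + w 1) := by
  simp [wT, aSum_one]

theorem wT_succ_succ (q : ℕ) (w : ℤ → ℂ) (n : ℕ) :
    wT q w (n + 2) = aSum q w (n + 2) - aSum q w n := by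
  unfold wT
  rw [if_pos (by omega)]
  rfl


theorem wT_zero_fun (q : ℕ) (n : ℕ) : wT q (fun _ => 0) n = 0 := by
  simp [wT, aSum]

/-! ## 7. The elliptic family of weights

`w(0) = N₀`, `w(t) = c (√q)^{-|t|}` (`t ≠ 0`).
* `c = 1`, `N₀ = 1 + (q + 1)(q^r - 1)/(q - 1)`: `γ` elliptic, `k[γ]` unramified, depth `r`;
* `c = 1/2`, `N₀ = (q^(ρ+1) - 1)/(q - 1)`: `γ` elliptic, `k[γ]` ramified;
* `c = 0`, `N₀ = q^r`: `γ` hyperbolic with eigenvalues of the same valuation. -/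

/-- The elliptic weight. -/
def wE (q : ℕ) (N0 c : ℂ) (t : ℤ) : ℂ := if t = 0 then N0 else c * (sq q ^ t.natAbs)⁻¹

/-- The values of the elliptic weight on the Satake polynomials:
`W_0 = N₀`, `W_{2j} = q^{j-1} ((q - 1) N₀ + 2c)` (`j ≥ 1`), `W_{2j+1} = 2 c q^j`. -/
def WE (q : ℕ) (N0 c : ℂ) (n : ℕ) : ℂ :=
  if n = 0 then N0
  else if n % 2 = 0 then (q : ℂ) ^ (n / 2 - 1) * (((q : ℂ) - 1) * N0 + 2 * c)
  else 2 * c * (q : ℂ) ^ (n / 2)

theorem wE_dil (q l : ℕ) (hl : 0 < l) (N0 c : ℂ) :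
    (fun t : ℤ => wE q N0 c ((l : ℤ) * t)) = wE (q ^ l) N0 c := by
  funext t
  unfold wE
  by_cases ht : t = 0
  · simp [ht]
  · have hl' : (l : ℤ) ≠ 0 := by exact_mod_cast hl.ne'
    have : (l : ℤ) * t ≠ 0 := mul_ne_zero hl' ht
    rw [if_neg this, if_neg ht, sq_pow, Int.natAbs_mul, Int.natAbs_natCast, pow_mul]

theorem aSum_wE_succ_succ {q : ℕ} (hq : 0 < q) (N0 c : ℂ) (n : ℕ) :
    aSum q (wE q N0 c) (n + 2) = (q : ℂ) * aSum q (wE q N0 c) n + 2 * c := by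
  rw [aSum_succ_succ]
  have h1 : (-((n : ℤ) + 2)) ≠ 0 := by omega
  have h2 : ((n : ℤ) + 2) ≠ 0 := by omega
  have a1 : (-((n : ℤ) + 2)).natAbs = n + 2 := by omega
  have a2 : ((n : ℤ) + 2).natAbs = n + 2 := by omega
  unfold wE
  rw [if_neg h1, if_neg h2, a1, a2]
  have hs : sq q ^ (n + 2) ≠ 0 := pow_ne_zero _ (sq_ne_zero hq)
  field_simp
  ring

theorem wT_wE_zero (q : ℕ) (N0 c : ℂ) : wT q (wE q N0 c) 0 = N0 := by
  rw [wT_zero]
  simp [wE]

theorem wT_wE_one {q : ℕ} (hq : 0 < q) (N0 c : ℂ) : wT q (wE q N0 c) 1 = 2 * c := by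
  rw [wT_one]
  have hs : sq q ≠ 0 := sq_ne_zero hq
  simp only [wE]
  norm_num
  field_simp
  ring

theorem wT_wE_two {q : ℕ} (hq : 0 < q) (N0 c : ℂ) :
    wT q (wE q N0 c) 2 = ((q : ℂ) - 1) * N0 + 2 * c := by
  rw [wT_succ_succ, aSum_wE_succ_succ hq, aSum_zero]
  simp only [wE, if_true]
  ring

theorem wT_wE_three {q : ℕ} (hq : 0 < q) (N0 c : ℂ) :
    wT q (wE q N0 c) 3 = 2 * c * (q : ℂ) := by
  have h1 := wT_wE_one hq N0 c
  rw [wT_one] at h1
  rw [wT_succ_succ, aSum_wE_succ_succ hq, aSum_one, h1]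
  ring

theorem wT_wE_add_four {q : ℕ} (hq : 0 < q) (N0 c : ℂ) (n : ℕ) :
    wT q (wE q N0 c) (n + 4) = (q : ℂ) * wT q (wE q N0 c) (n + 2) := by
  rw [wT_succ_succ q _ (n + 2), wT_succ_succ, aSum_wE_succ_succ hq N0 c (n + 2),
    aSum_wE_succ_succ hq N0 c n]
  ring

theorem wT_wE_even {q : ℕ} (hq : 0 < q) (N0 c : ℂ) (j : ℕ) :
    wT q (wE q N0 c) (2 * j + 2) = (q : ℂ) ^ j * (((q : ℂ) - 1) * N0 + 2 * c) := by
  induction j with
  | zero => simp [wT_wE_two hq]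
  | succ j ih =>
      rw [show 2 * (j + 1) + 2 = (2 * j) + 4 by ring, wT_wE_add_four hq, ih]
      ring

theorem wT_wE_odd {q : ℕ} (hq : 0 < q) (N0 c : ℂ) (j : ℕ) :
    wT q (wE q N0 c) (2 * j + 1) = 2 * c * (q : ℂ) ^ j := by
  rcases j with _ | j
  · simp [wT_wE_one hq]
  · induction j with
    | zero => simp [wT_wE_three hq]
    | succ j ih =>
        rw [show 2 * (j + 1 + 1) + 1 = (2 * j + 1) + 4 by ring, wT_wE_add_four hq,
          show 2 * j + 1 + 2 = 2 * (j + 1) + 1 by ring, ih]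
        ring

theorem wT_wE {q : ℕ} (hq : 0 < q) (N0 c : ℂ) (n : ℕ) : wT q (wE q N0 c) n = WE q N0 c n := by
  unfold WE
  by_cases h0 : n = 0
  · rw [if_pos h0, h0, wT_wE_zero]
  · rw [if_neg h0]
    by_cases h2 : n % 2 = 0
    · rw [if_pos h2]
      obtain ⟨j, rfl⟩ : ∃ j, n = 2 * j + 2 := ⟨n / 2 - 1, by omega⟩
      rw [wT_wE_even hq]
      congr 2
      omega
    · rw [if_neg h2]
      obtain ⟨j, rfl⟩ : ∃ j, n = 2 * j + 1 := ⟨n / 2, by omega⟩
      rw [wT_wE_odd hq]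
      congr 2
      omega

/-- **Functional identity, elliptic family.**  `f = b(φ)`, `φ`, `f` dominant, `N₀`, `c`
arbitrary complex numbers, `d` any degree:
`∑_{a + b = l d} f(a, b) WE_q(a - b) = ∑_{a' + b' = d} φ(a', b') WE_{q^l}(a' - b')`. -/
theorem fl_functional_E {l q : ℕ} (hl : 0 < l) (hq : 0 < q) {φ f : (ℤ × ℤ) →₀ ℂ}
    (h : IsBC l q φ f) (hφ : IsDominant φ) (hf : IsDominant f) (d : ℤ) (N0 c : ℂ) :
    (f.sum fun lam v =>
        if lam.1 + lam.2 = (l : ℤ) * d then v * WE q N0 c (lam.1 - lam.2).toNat else 0)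
      = φ.sum fun lam v =>
        if lam.1 + lam.2 = d then v * WE (q ^ l) N0 c (lam.1 - lam.2).toNat else 0 := by
  have hmain := bc_graded hl h hφ hf d (wE q N0 c)
  rw [wE_dil q l hl] at hmain
  have hql : 0 < q ^ l := pow_pos hq l
  simp only [wT_wE hq, wT_wE hql] at hmain
  exact hmain

/-! ## 8. The hyperbolic family of weights

`w(t) = (2 (√q)^{t₀})⁻¹` if `|t| = t₀`, `0` otherwise (`t₀ ≥ 1`): `γ` hyperbolic with eigenvalues
of valuations `m₁ ≠ m₂`, `t₀ = |m₁ - m₂|`. -/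

/-- The hyperbolic weight. -/
def wH (q t0 : ℕ) (t : ℤ) : ℂ := if t.natAbs = t0 then (2 * sq q ^ t0)⁻¹ else 0

/-- `B_n = q^{(n - t₀)/2}` if `n ≥ t₀`, `n ≡ t₀ mod 2`, and `0` otherwise. -/
def BH (q t0 n : ℕ) : ℂ := if t0 ≤ n ∧ (n - t0) % 2 = 0 then (q : ℂ) ^ ((n - t0) / 2) else 0

/-- The values of the hyperbolic weight on the Satake polynomials: `W_n = 0` unless `n ≥ t₀`,
`n ≡ t₀ mod 2`; `W_{t₀} = 1`; `W_{t₀ + 2i} = (q - 1) q^{i-1}` (`i ≥ 1`). -/
def WH (q t0 n : ℕ) : ℂ :=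
  if t0 ≤ n ∧ (n - t0) % 2 = 0 then
    (if n = t0 then 1 else ((q : ℂ) - 1) * (q : ℂ) ^ ((n - t0) / 2 - 1))
  else 0

theorem aSum_wH_succ_succ {q : ℕ} (hq : 0 < q) (t0 n : ℕ) :
    aSum q (wH q t0) (n + 2) = (q : ℂ) * aSum q (wH q t0) n + (if n + 2 = t0 then 1 else 0) := by
  rw [aSum_succ_succ]
  have a1 : (-((n : ℤ) + 2)).natAbs = n + 2 := by omega
  have a2 : ((n : ℤ) + 2).natAbs = n + 2 := by omega
  unfold wH
  rw [a1, a2]
  by_cases h : n + 2 = t0
  · rw [if_pos h, if_pos h, ← h]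
    have hs : sq q ^ (n + 2) ≠ 0 := pow_ne_zero _ (sq_ne_zero hq)
    field_simp
    ring
  · rw [if_neg h, if_neg h]
    ring

theorem aSum_wH {q : ℕ} (hq : 0 < q) {t0 : ℕ} (ht0 : 0 < t0) :
    ∀ n : ℕ, aSum q (wH q t0) n = BH q t0 n
  | 0 => by
      rw [aSum_zero]
      unfold wH BH
      rw [if_neg (by simpa using ht0.ne), if_neg (by omega)]
  | 1 => by
      rw [aSum_one]
      unfold wH BH
      by_cases h : t0 = 1
      · subst h
        have hs : sq q ≠ 0 := sq_ne_zero hq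
        simp only [Int.reduceNeg, Int.natAbs_neg, Int.natAbs_one, if_true, pow_one, le_refl,
          Nat.sub_self, Nat.zero_mod, and_self, Nat.zero_div, pow_zero]
        field_simp
        ring
      · have h1 : ¬ ((-1 : ℤ).natAbs = t0) := by simpa using Ne.symm h
        have h2 : ¬ ((1 : ℤ).natAbs = t0) := by simpa using Ne.symm h
        rw [if_neg h1, if_neg h2, if_neg (by omega)]
        ring
  | (n + 2) => by
      rw [aSum_wH_succ_succ hq, aSum_wH hq ht0 n]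
      unfold BH
      by_cases h1 : t0 ≤ n ∧ (n - t0) % 2 = 0
      · rw [if_pos h1, if_neg (by omega), if_pos (by omega)]
        have e : (n + 2 - t0) / 2 = (n - t0) / 2 + 1 := by omega
        rw [e, pow_succ]
        ring
      · rw [if_neg h1]
        by_cases h2 : n + 2 = t0
        · rw [if_pos h2, if_pos (by omega)]
          have e : (n + 2 - t0) / 2 = 0 := by omega
          rw [e]
          simp
        · rw [if_neg h2, if_neg (by omega)]
          ring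

theorem wT_wH {q : ℕ} (hq : 0 < q) {t0 : ℕ} (ht0 : 0 < t0) (n : ℕ) :
    wT q (wH q t0) n = WH q t0 n := by
  unfold wT
  rw [aSum_wH hq ht0]
  unfold WH BH
  by_cases h1 : t0 ≤ n ∧ (n - t0) % 2 = 0
  · rw [if_pos h1, if_pos h1]
    by_cases h2 : n = t0
    · rw [if_pos h2]
      subst h2
      split_ifs with h3
      · rw [aSum_wH hq ht0]
        unfold BH
        rw [if_neg (by omega)]
        simp
      · simp
    · rw [if_neg h2]
      have h3 : 2 ≤ n := by omega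
      rw [if_pos h3, aSum_wH hq ht0]
      unfold BH
      rw [if_pos (by omega)]
      have e : (n - t0) / 2 = ((n - t0) / 2 - 1) + 1 := by omega
      have e' : (n - 2 - t0) / 2 = (n - t0) / 2 - 1 := by omega
      rw [e', e, pow_succ]
      simp only [Nat.add_sub_cancel]
      ring
  · rw [if_neg h1, if_neg h1]
    split_ifs with h3
    · rw [aSum_wH hq ht0]
      unfold BH
      rw [if_neg (by omega)]
      simp
    · simp

theorem wH_dil (q l : ℕ) (hl : 0 < l) (t0 : ℕ) :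
    (fun t : ℤ => wH q (l * t0) ((l : ℤ) * t)) = wH (q ^ l) t0 := by
  funext t
  unfold wH
  rw [Int.natAbs_mul, Int.natAbs_natCast, sq_pow, ← pow_mul]
  by_cases h : t.natAbs = t0
  · rw [if_pos h, if_pos (by rw [h])]
  · rw [if_neg h, if_neg]
    intro hh
    exact h (Nat.eq_of_mul_eq_mul_left hl hh)

theorem wH_dil_not_dvd (q l : ℕ) (t0 : ℕ) (h : ¬ l ∣ t0) :
    (fun t : ℤ => wH q t0 ((l : ℤ) * t)) = fun _ => 0 := by
  funext t
  unfold wH
  rw [if_neg]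
  intro hh
  apply h
  rw [← hh, Int.natAbs_mul, Int.natAbs_natCast]
  exact dvd_mul_right _ _

/-- **Functional identity, hyperbolic family** (norm case: `t₀ = l t₀'`, degree `l d`). -/
theorem fl_functional_H {l q : ℕ} (hl : 0 < l) (hq : 0 < q) {φ f : (ℤ × ℤ) →₀ ℂ}
    (h : IsBC l q φ f) (hφ : IsDominant φ) (hf : IsDominant f) (d : ℤ) {t0 : ℕ} (ht0 : 0 < t0) :
    (f.sum fun lam v =>
        if lam.1 + lam.2 = (l : ℤ) * d then v * WH q (l * t0) (lam.1 - lam.2).toNat else 0)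
      = φ.sum fun lam v =>
        if lam.1 + lam.2 = d then v * WH (q ^ l) t0 (lam.1 - lam.2).toNat else 0 := by
  have hmain := bc_graded hl h hφ hf d (wH q (l * t0))
  rw [wH_dil q l hl] at hmain
  have hql : 0 < q ^ l := pow_pos hq l
  simp only [wT_wH hq (Nat.mul_pos hl ht0), wT_wH hql ht0] at hmain
  exact hmain

/-- **Vanishing, hyperbolic family**: if `l ∤ e` or `l ∤ t₀` the sum for `f = b(φ)` vanishes. -/
theorem fl_vanish_H {l q : ℕ} (hl : 0 < l) (hq : 0 < q) {φ f : (ℤ × ℤ) →₀ ℂ}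
    (h : IsBC l q φ f) (hφ : IsDominant φ) (hf : IsDominant f) (e : ℤ) {t0 : ℕ} (ht0 : 0 < t0)
    (hnd : ¬ ((l : ℤ) ∣ e ∧ l ∣ t0)) :
    (f.sum fun lam v =>
        if lam.1 + lam.2 = e then v * WH q t0 (lam.1 - lam.2).toNat else 0) = 0 := by
  by_cases he : (l : ℤ) ∣ e
  · have ht : ¬ l ∣ t0 := fun ht => hnd ⟨he, ht⟩
    obtain ⟨d, rfl⟩ := he
    have hmain := bc_graded hl h hφ hf d (wH q t0)
    rw [wH_dil_not_dvd q l t0 ht] at hmain
    simp only [wT_wH hq ht0, wT_zero_fun, mul_zero, ite_self] at hmain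
    rw [hmain]
    simp [Finsupp.sum]
  · have hmain := bc_graded_not_dvd h hf e he (wH q t0)
    simp only [wT_wH hq ht0] at hmain
    exact hmain

/-- **Vanishing, elliptic family**: if `l ∤ e` the sum for `f = b(φ)` vanishes. -/
theorem fl_vanish_E {l q : ℕ} (hq : 0 < q) {φ f : (ℤ × ℤ) →₀ ℂ}
    (h : IsBC l q φ f) (hf : IsDominant f) (e : ℤ) (he : ¬ (l : ℤ) ∣ e) (N0 c : ℂ) :
    (f.sum fun lam v =>
        if lam.1 + lam.2 = e then v * WE q N0 c (lam.1 - lam.2).toNat else 0) = 0 := by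
  have hmain := bc_graded_not_dvd h hf e he (wE q N0 c)
  simp only [wT_wE hq] at hmain
  exact hmain


/-! ## 9. The support of a base change -/

/-- For every `n₀` there is a weight `w` with `W_{n₀}[w] = 1` and `W_n[w] = 0` for `n < n₀`. -/
theorem exists_weight {q : ℕ} (hq : 0 < q) (n0 : ℕ) :
    ∃ w : ℤ → ℂ, wT q w n0 = 1 ∧ ∀ n, n < n0 → wT q w n = 0 := by
  by_cases h0 : n0 = 0
  · refine ⟨wE q 1 0, ?_, ?_⟩
    · rw [h0, wT_wE_zero]
    · intro n hn
      omega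
  · refine ⟨wH q n0, ?_, ?_⟩
    · rw [wT_wH hq (Nat.pos_of_ne_zero h0)]
      unfold WH
      simp
    · intro n hn
      rw [wT_wH hq (Nat.pos_of_ne_zero h0)]
      unfold WH
      rw [if_neg (by omega)]

/-- **Support of a base change.**  If `f = b(φ)` with `f` dominant (and `q ≥ 1`), then `f` is
supported on the `(a, b)` with `l ∣ a + b`. -/
theorem support_dvd {l q : ℕ} (hq : 0 < q) {φ f : (ℤ × ℤ) →₀ ℂ} (h : IsBC l q φ f)
    (hf : IsDominant f) : ∀ lam ∈ f.support, (l : ℤ) ∣ lam.1 + lam.2 := by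
  classical
  intro lam hlam
  by_contra hnd
  have hS : (f.support.filter (fun mu : ℤ × ℤ => mu.1 + mu.2 = lam.1 + lam.2)).Nonempty :=
    ⟨lam, Finset.mem_filter.mpr ⟨hlam, rfl⟩⟩
  obtain ⟨mu, hmu, hmax⟩ :=
    Finset.exists_max_image _ (fun mu : ℤ × ℤ => (mu.1 - mu.2).toNat) hS
  have hmuS := Finset.mem_filter.mp hmu
  obtain ⟨w, hw1, hw0⟩ := exists_weight hq (mu.1 - mu.2).toNat
  have hmain := bc_graded_not_dvd h hf (lam.1 + lam.2) hnd w
  rw [Finsupp.sum, Finset.sum_eq_single mu] at hmain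
  · rw [if_pos hmuS.2, hw1, mul_one] at hmain
    exact (Finsupp.mem_support_iff.mp hmuS.1) hmain
  · intro nu hnu hne
    by_cases hd : nu.1 + nu.2 = lam.1 + lam.2
    · rw [if_pos hd]
      have hnuS : nu ∈ f.support.filter (fun mu : ℤ × ℤ => mu.1 + mu.2 = lam.1 + lam.2) :=
        Finset.mem_filter.mpr ⟨hnu, hd⟩
      have hle := hmax nu hnuS
      have hlt : (nu.1 - nu.2).toNat < (mu.1 - mu.2).toNat := by
        rcases Nat.lt_or_ge (nu.1 - nu.2).toNat (mu.1 - mu.2).toNat with h1 | h1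
        · exact h1
        · exfalso
          have d1 := hf nu hnu
          have d2 := hf mu hmuS.1
          have hd2 := hmuS.2
          apply hne
          apply Prod.ext <;> omega
      rw [hw0 _ hlt, mul_zero]
    · rw [if_neg hd]
  · intro hmu'
    exact absurd hmuS.1 hmu'

end Fermat.Agent.LT.T6.H423

end
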