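import Mathlib
import Fermat.Agent.LT.T6.Spec
import Fermat.Agent.LT.T6.H847.EllRamSpec
import Fermat.Agent.LT.T6.H423.SatFun

/-!
# Row LT, tower T6, sub-leaf T6.14d `EllAlgC` (helper423), OFF-MAIN

`ellAlg423 : Fermat.Agent.LT.T6.H847.EllAlgC`, from the Satake functional identity
`fl_functional_E` of `SatFun.lean` (elliptic family, `N₀ = Θ`, `c = 1/2`).
-/

set_option autoImplicit false

noncomputable section

namespace Fermat.Agent.LT.T6.H423

open Fermat.Agent.LT.T6 Fermat.Agent.LT.T6.H847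

/-- The weight `ellWeight` on a dominant `λ` is the elliptic weight `WE` with `c = 1/2`. -/
theorem ellWeight_eq_WE (Q : ℕ) (lam : ℤ × ℤ) (hlam : lam.2 ≤ lam.1) (j : ℤ) (Θ : ℂ) :
    ellWeight Q lam j Θ
      = if lam.1 + lam.2 = j then WE Q Θ (1 / 2) (lam.1 - lam.2).toNat else 0 := by
  unfold ellWeight
  by_cases hd : lam.1 + lam.2 = j
  · rw [if_pos ⟨hd, hlam⟩, if_pos hd]
    by_cases hodd : j % 2 = 1
    · rw [if_pos hodd]
      unfold WE
      rw [if_neg (by omega), if_neg (by omega)]
      have e1 : (lam.1 - lam.2 - 1) / 2 = (((lam.1 - lam.2).toNat / 2 : ℕ) : ℤ) := by omega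
      rw [e1, zpow_natCast]
      ring
    · rw [if_neg hodd]
      by_cases h0 : lam.1 = lam.2
      · rw [if_pos h0]
        unfold WE
        rw [if_pos (by omega)]
      · rw [if_neg h0]
        unfold WE
        rw [if_neg (by omega), if_pos (by omega)]
        have e1 : (lam.1 - lam.2) / 2 - 1 = (((lam.1 - lam.2).toNat / 2 - 1 : ℕ) : ℤ) := by
          omega
        rw [e1, zpow_natCast]
        ring
  · rw [if_neg (fun hh => hd hh.1), if_neg hd]

/-- **T6.14d (EllAlg).** -/
theorem ellAlg423 : EllAlgC := by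
  intro l q hl hq φ f hφ hf hbc j Θ
  have hq0 : 0 < q := by omega
  have hmain := fl_functional_E hl hq0 hbc hφ hf j Θ (1 / 2)
  have lhs : (f.sum fun lam a => a * ellWeight q lam ((l : ℤ) * j) Θ)
      = f.sum fun lam v =>
        if lam.1 + lam.2 = (l : ℤ) * j then v * WE q Θ (1 / 2) (lam.1 - lam.2).toNat
        else 0 := by
    apply Finsupp.sum_congr
    intro lam hlam
    rw [ellWeight_eq_WE q lam (hf lam hlam)]
    split_ifs <;> simp
  have rhs : (φ.sum fun lam a => a * ellWeight (q ^ l) lam j Θ)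
      = φ.sum fun lam v =>
        if lam.1 + lam.2 = j then v * WE (q ^ l) Θ (1 / 2) (lam.1 - lam.2).toNat
        else 0 := by
    apply Finsupp.sum_congr
    intro lam hlam
    rw [ellWeight_eq_WE (q ^ l) lam (hφ lam hlam)]
    split_ifs <;> simp
  rw [lhs, rhs]
  exact hmain

end Fermat.Agent.LT.T6.H423

end
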